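/-
helper34: PET-M2 (P-PET), abstract construction of a fundamental domain of a subgroup from
coset representatives.  Everything lives in namespace `Fermat.Agent.H34`.
-/
import Fermat.Agent.H98.Pet.Interfaces

set_option autoImplicit false

open MeasureTheory Function

open scoped Pointwise

namespace Fermat.Agent.H34

section fundDom

variable {G X : Type*} [Group G] [MulAction G X] [MeasurableSpace X] {μ : Measure X}
  [MeasurableConstSMul G X] [SMulInvariantMeasure G X μ]
  {H H' : Subgroup G} {F : Set X} {ι : Type*} {t : ι → G}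

omit [MeasurableConstSMul G X] in
/-- The basic almost-disjointness of the translates `(k * (t i)⁻¹) • F` and `(t j)⁻¹ • F`. -/
theorem petAEDisjoint_translates
    (hdisj : ∀ h ∈ H, (∀ x : X, h • x = x) ∨ AEDisjoint μ (h • F) F)
    (hle : H' ≤ H) (ht : ∀ i, t i ∈ H)
    (huniq : ∀ i j, ∀ k ∈ H', (∀ x : X, (t i * k) • x = t j • x) → i = j ∧ k = 1)
    {k : G} (hk : k ∈ H') (i j : ι) (hne : k ≠ 1 ∨ i ≠ j) :
    AEDisjoint μ ((k * (t i)⁻¹) • F) ((t j)⁻¹ • F) := by
  set h : G := t j * k * (t i)⁻¹ with hh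
  have hhH : h ∈ H := H.mul_mem (H.mul_mem (ht j) (hle hk)) (H.inv_mem (ht i))
  have hset : (k * (t i)⁻¹) • F ∩ (t j)⁻¹ • F = (t j)⁻¹ • (h • F ∩ F) := by
    rw [Set.smul_set_inter, smul_smul]
    congr 2
    rw [hh]
    group
  show μ ((k * (t i)⁻¹) • F ∩ (t j)⁻¹ • F) = 0
  rw [hset, measure_smul]
  rcases hdisj h hhH with htriv | hd
  · exfalso
    have h1 : ∀ x : X, (t j * k) • x = t i • x := by
      intro x
      have h2 := htriv (t i • x)
      rw [smul_smul] at h2
      rw [← h2, hh]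
      congr 1
      group
    obtain ⟨hji, hk1⟩ := huniq j i k hk h1
    rcases hne with hne | hne
    · exact hne hk1
    · exact hne hji.symm
  · exact hd

/-- **PET-M2** (universe polymorphic form). -/
theorem petFundDomIndex [Countable H] [Fintype ι]
    (hF : NullMeasurableSet F μ)
    (hcov : ∀ᵐ x ∂μ, ∃ h ∈ H, h • x ∈ F)
    (hdisj : ∀ h ∈ H, (∀ x : X, h • x = x) ∨ AEDisjoint μ (h • F) F)
    (hle : H' ≤ H) (ht : ∀ i, t i ∈ H)
    (hrep : ∀ h ∈ H, ∃ i, ∃ k ∈ H', ∀ x : X, h • x = (t i * k) • x)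
    (huniq : ∀ i j, ∀ k ∈ H', (∀ x : X, (t i * k) • x = t j • x) → i = j ∧ k = 1) :
    IsFundamentalDomain H' (⋃ i, (t i)⁻¹ • F) μ ∧
    μ (⋃ i, (t i)⁻¹ • F) = Fintype.card ι * μ F ∧
    ∀ Φ : X → ℂ, IntegrableOn Φ F μ → (∀ h ∈ H, ∀ x, Φ (h • x) = Φ x) →
      ∫ x in ⋃ i, (t i)⁻¹ • F, Φ x ∂μ = Fintype.card ι * ∫ x in F, Φ x ∂μ := by
  have hmeas : ∀ i, NullMeasurableSet ((t i)⁻¹ • F) μ := fun i => hF.smul _
  have hpair : Pairwise (AEDisjoint μ on fun i => (t i)⁻¹ • F) := by
    intro i j hij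
    have := petAEDisjoint_translates (μ := μ) hdisj hle ht huniq (k := 1) H'.one_mem i j
      (Or.inr hij)
    simpa using this
  refine ⟨?_, ?_, ?_⟩
  · refine IsFundamentalDomain.mk'' (.iUnion hmeas) ?_ ?_ ?_
    · filter_upwards [hcov] with x hx
      obtain ⟨h, hh, hx⟩ := hx
      obtain ⟨i, k, hk, hik⟩ := hrep h hh
      refine ⟨⟨k, hk⟩, ?_⟩
      rw [Set.mem_iUnion]
      refine ⟨i, ?_⟩
      rw [Set.mem_inv_smul_set_iff]
      show t i • (k • x) ∈ F
      rw [smul_smul, ← hik]
      exact hx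
    · intro k hk1
      have hk1' : (k : G) ≠ 1 := fun h => hk1 (Subtype.ext h)
      have hsm : ∀ s : Set X, k • s = (k : G) • s := fun s => rfl
      rw [hsm, Set.smul_set_iUnion, AEDisjoint.iUnion_left_iff]
      intro i
      rw [AEDisjoint.iUnion_right_iff]
      intro j
      have := petAEDisjoint_translates (μ := μ) hdisj hle ht huniq k.2 i j (Or.inl hk1')
      rwa [smul_smul]
    · intro k
      exact (measurePreserving_smul (k : G) μ).quasiMeasurePreserving
  · rw [measure_iUnion₀ hpair hmeas, tsum_fintype]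
    simp [measure_smul]
  · intro Φ hΦ hinv
    have hint : ∀ i, IntegrableOn Φ ((t i)⁻¹ • F) μ := by
      intro i
      have h1 := (measurePreserving_smul (t i) μ).integrableOn_comp_preimage
        (measurableEmbedding_const_smul (t i)) (f := Φ) (s := F)
      have h2 : (Φ ∘ fun x => t i • x) = Φ := funext (fun x => hinv _ (ht i) x)
      have h3 : (fun x : X => t i • x) ⁻¹' F = (t i)⁻¹ • F := Set.preimage_smul (t i) F
      rw [h2, h3] at h1
      exact h1.mpr hΦ
    have hintU : IntegrableOn Φ (⋃ i, (t i)⁻¹ • F) μ := integrableOn_finite_iUnion.mpr hint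
    rw [integral_iUnion_ae hmeas hpair hintU, tsum_fintype]
    have hval : ∀ i, ∫ x in (t i)⁻¹ • F, Φ x ∂μ = ∫ x in F, Φ x ∂μ := by
      intro i
      have h1 := (measurePreserving_smul (t i) μ).setIntegral_preimage_emb
        (measurableEmbedding_const_smul (t i)) Φ F
      rw [Set.preimage_smul] at h1
      rw [← h1]
      refine setIntegral_congr_fun₀ (hmeas i) (fun x _ => ?_)
      exact (hinv _ (ht i) x).symm
    simp [hval]

end fundDom

/-- **PET-M2**: `Fermat.Agent.H98.Pet.FundamentalDomainIndexStatement`. -/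
theorem fundamentalDomainIndex : Fermat.Agent.H98.Pet.FundamentalDomainIndexStatement := by
  intro G X _ _ _ μ _ _ H H' _ F ι _ t hF hcov hdisj hle ht hrep huniq
  exact petFundDomIndex hF hcov hdisj hle ht hrep huniq

end Fermat.Agent.H34
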